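import Mathlib
import Fermat.Agent.T1.RedIface75
import Fermat.Agent.T1.Red68.Descent
import Fermat.Agent.Jac.BaseChange75.Complex
import Fermat.Agent.Jac.BaseChange75.Square
import Fermat.Agent.Jac.LineOps39.Section

/-!
# T1B, J-BRIDGE (B3), brick EXT-INJ-FIELD (helper43)

`c0 : TwoChart W B0 B1 B01`, `L → L'` an extension of FIELDS over `W`, `H⁰(O_{X_{L'}}) = L'`
(`Red68.H0Const (c0.baseChange L')`).  Then `Pic X_L → Pic X_{L'}` is injective:

* `nonempty_iso_unit_of_generates` : a line generated on both charts by a global section is trivial;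
* `exists_retraction` : `L' ⊗[W] B → L ⊗[W] B`, an `L ⊗[W] B`-linear retraction of the base change map;
* `nonempty_iso_unit_of_liftData_unit_field` : a line on `X_L` whose base change to `X_{L'}` is
  trivial is trivial (flat base change of `H⁰` gives a nonzero section; its image over `L'` is a
  nonzero constant, hence a unit; the retraction descends generation);
* **`picMap_injective_of_field`** : `Function.Injective (PicX.map c0 L L')`.
-/

set_option autoImplicit false
set_option linter.unusedSectionVars false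
set_option linter.style.haveILetI false

universe u

open TensorProduct

namespace Fermat.Agent.T1B.Bridge43

open Fermat.Agent.Jac Fermat.Agent.Jac.LineOps39 Fermat.Agent.Jac.JSmooth85Alg
open Fermat.Agent.Jac.JGroup85Pic Fermat.Agent.Jac.BaseChange75 Fermat.Agent.T1.RedIface75
open Fermat.Agent.T1.Red68
open scoped Fermat.Agent.Jac.BaseChange75

/-! ### A line generated by a global section is trivial -/

section Generates

variable {A R0 R1 R01 : Type u} [CommRing A] [CommRing R0] [CommRing R1] [CommRing R01]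
  [Algebra A R0] [Algebra A R1] [Algebra A R01] [Algebra R0 R01] [Algebra R1 R01]
  [IsScalarTower A R0 R01] [IsScalarTower A R1 R01]

/-- A line which is generated on both charts by a global section is trivial. -/
theorem nonempty_iso_unit_of_generates (M : QC2 A R0 R1 R01) (hM : M.IsLine) (σ : M.H0)
    (s0 : ∀ n : M.N0, ∃ r : R0, r • σ.1.1 = n) (s1 : ∀ n : M.N1, ∃ r : R1, r • σ.1.2 = n) :
    Nonempty (QC2.Iso (QC2.unit : QC2 A R0 R1 R01) M) := by
  have i0 := hM.inv0
  have i1 := hM.inv1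
  have i01 := invertible_N01 hM
  let f := homOfSection M σ
  have hs0 : Function.Surjective f.f0 := fun n => s0 n
  have hs1 : Function.Surjective f.f1 := fun n => s1 n
  have hs01 : Function.Surjective f.f01 := by
    intro y
    induction y using M.bc0.inductionOn with
    | zero => exact ⟨0, map_zero _⟩
    | tmul x =>
      obtain ⟨a, ha⟩ := hs0 x
      exact ⟨algebraMap R0 R01 a, by rw [← ha]; exact f.comm0 a⟩
    | smul r y hy =>
      obtain ⟨a, ha⟩ := hy
      exact ⟨r • a, by rw [map_smul, ha]⟩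
    | add y₁ y₂ h₁ h₂ =>
      obtain ⟨a, ha⟩ := h₁
      obtain ⟨b, hb⟩ := h₂
      exact ⟨a + b, by rw [map_add, ha, hb]⟩
  have b0 : Function.Bijective f.f0 :=
    Module.Invertible.bijective_of_surjective (R := R0) (M := R0) (N := M.N0) hs0
  have b1 : Function.Bijective f.f1 :=
    Module.Invertible.bijective_of_surjective (R := R1) (M := R1) (N := M.N1) hs1
  have b01 : Function.Bijective f.f01 :=
    Module.Invertible.bijective_of_surjective (R := R01) (M := R01) (N := M.N01) hs01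
  exact ⟨isoOfBijective f b0 b1 b01⟩

end Generates

/-! ### Retractions -/

section Retraction

variable {R R' N : Type u} [CommRing R] [CommRing R'] [Algebra R R'] [AddCommGroup N] [Module R N]

/-- The map `R' ⊗[R] N → N`, `r' ⊗ n ↦ p r' • n`, attached to an `R`-linear form `p` on `R'`. -/
noncomputable def retrMap (p : R' →ₗ[R] R) : R' ⊗[R] N →ₗ[R] N :=
  TensorProduct.lift ((LinearMap.lsmul R N).comp p)

@[simp] theorem retrMap_tmul (p : R' →ₗ[R] R) (r' : R') (n : N) :
    retrMap p (r' ⊗ₜ[R] n) = p r' • n := by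
  simp [retrMap]

end Retraction

section ExistsRetraction

variable (W L L' B : Type u) [CommRing W] [Field L] [Field L'] [CommRing B] [Algebra W L]
  [Algebra W L'] [Algebra W B] [Algebra L L'] [IsScalarTower W L L']

/-- The base change map `L ⊗[W] B → L' ⊗[W] B` along a field extension has an
`L ⊗[W] B`-linear retraction. -/
theorem exists_retraction :
    ∃ p : (L' ⊗[W] B) →ₗ[L ⊗[W] B] (L ⊗[W] B), p 1 = 1 := by
  obtain ⟨π, hπ⟩ := LinearMap.exists_leftInverse_of_injective (Algebra.linearMap L L')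
    (LinearMap.ker_eq_bot.2 (algebraMap L L').injective)
  have hπ1 : π 1 = 1 := by
    have := LinearMap.congr_fun hπ 1
    simpa using this
  let g : L' ⊗[W] B →ₗ[W] L ⊗[W] B := TensorProduct.map (π.restrictScalars W) LinearMap.id
  have hg : ∀ (a' : L') (b : B), g (a' ⊗ₜ[W] b) = π a' ⊗ₜ[W] b := fun a' b => rfl
  have hsmul : ∀ (r : L ⊗[W] B) (x : L' ⊗[W] B),
      g (algebraMap (L ⊗[W] B) (L' ⊗[W] B) r * x) = r * g x := by
    intro r x
    induction r using TensorProduct.induction_on with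
    | zero => simp
    | add r₁ r₂ h₁ h₂ => rw [map_add, add_mul, map_add, h₁, h₂, add_mul]
    | tmul a b =>
      induction x using TensorProduct.induction_on with
      | zero => simp
      | add x₁ x₂ h₁ h₂ => rw [mul_add, map_add, h₁, h₂, map_add, mul_add]
      | tmul a' b' =>
        rw [algebraMap_left_tmul, Algebra.TensorProduct.tmul_mul_tmul, hg, hg,
          Algebra.TensorProduct.tmul_mul_tmul, ← Algebra.smul_def, map_smul, smul_eq_mul]
  refine ⟨{ toFun := g, map_add' := map_add g, map_smul' := fun r x => ?_ }, ?_⟩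
  · rw [Algebra.smul_def, hsmul, RingHom.id_apply, smul_eq_mul]
  · show g 1 = 1
    rw [Algebra.TensorProduct.one_def, hg, hπ1]
    rfl

end ExistsRetraction

/-! ### The field case -/

section Field

variable {W B0 B1 B01 : Type u} [CommRing W] [CommRing B0] [CommRing B1] [CommRing B01]
  [Algebra W B0] [Algebra W B1] [Algebra W B01] [Algebra B0 B01] [Algebra B1 B01]
  [IsScalarTower W B0 B01] [IsScalarTower W B1 B01]
  (c0 : TwoChart W B0 B1 B01)
  (L L' : Type u) [Field L] [Field L'] [Algebra W L] [Algebra W L'] [Algebra L L']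
  [IsScalarTower W L L']

variable {L L'} in
/-- `toAdd0` is injective (retraction argument). -/
theorem toAdd_eq_zero {R R' N : Type u} [CommRing R] [CommRing R'] [Algebra R R']
    [AddCommGroup N] [Module R N] (p : R' →ₗ[R] R) (hp : p 1 = 1) {N' : Type u} [AddCommGroup N']
    [Module R' N'] (e : R' ⊗[R] N ≃ₗ[R'] N') {n : N} (hn : e (1 ⊗ₜ[R] n) = 0) : n = 0 := by
  have h1 : (1 : R') ⊗ₜ[R] n = 0 := e.injective (by rw [hn, map_zero])
  have h2 := congrArg (retrMap p) h1
  rwa [retrMap_tmul, hp, one_smul, map_zero] at h2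

/-- Generation descends along the retraction: if the image of `σ` under a trivialisation
`e : R' ⊗[R] N ≃ R'` is a unit then `σ` generates `N`. -/
theorem exists_smul_eq_of_isUnit {R R' N : Type u} [CommRing R] [CommRing R'] [Algebra R R']
    [AddCommGroup N] [Module R N] (p : R' →ₗ[R] R) (hp : p 1 = 1)
    (e : R' ⊗[R] N ≃ₗ[R'] R') {σ : N} (hu : IsUnit (e (1 ⊗ₜ[R] σ))) (n : N) :
    ∃ r : R, r • σ = n := by
  obtain ⟨u, hu'⟩ := hu
  set ρ : R' := e (1 ⊗ₜ[R] n) * ((u⁻¹ : R'ˣ) : R') with hρ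
  have h1 : e (ρ ⊗ₜ[R] σ) = e (1 ⊗ₜ[R] n) := by
    have : ρ ⊗ₜ[R] σ = ρ • ((1 : R') ⊗ₜ[R] σ) := by
      rw [TensorProduct.smul_tmul', smul_eq_mul, mul_one]
    rw [this, map_smul, smul_eq_mul, ← hu', hρ, mul_assoc, Units.inv_mul, mul_one]
  have h2 := congrArg (retrMap p) (e.injective h1)
  rw [retrMap_tmul, retrMap_tmul, hp, one_smul] at h2
  exact ⟨p ρ, h2⟩

/-- **A line on `X_L` whose base change to `X_{L'}` is trivial is trivial.** -/
theorem nonempty_iso_unit_of_liftData_unit_field [Nontrivial (L' ⊗[W] B0)]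
    (hH0 : H0Const (c0.baseChange L'))
    {M : QC2 L (L ⊗[W] B0) (L ⊗[W] B1) (L ⊗[W] B01)} (hM : M.IsLine)
    (h : LiftData M (QC2.unit : QC2 L' (L' ⊗[W] B0) (L' ⊗[W] B1) (L' ⊗[W] B01))) :
    Nonempty (QC2.Iso (QC2.unit : QC2 L (L ⊗[W] B0) (L ⊗[W] B1) (L ⊗[W] B01)) M) := by
  obtain ⟨p0, hp0⟩ := exists_retraction W L L' B0
  obtain ⟨p1, hp1⟩ := exists_retraction W L L' B1
  -- a nonzero global section
  have hex : ∃ σ : M.H0, σ ≠ 0 := by
    by_contra hcon
    have hcon : ∀ σ : M.H0, σ = 0 := fun σ => by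
      by_contra hne
      exact hcon ⟨σ, hne⟩
    have hinj : Function.Injective M.d := by
      rw [← LinearMap.ker_eq_bot, eq_bot_iff]
      intro x hx
      have := hcon ⟨x, hx⟩
      exact (Submodule.mem_bot _).2 (congrArg Subtype.val this)
    have hinj' : Function.Injective (M.dBC L') := by
      have := Module.Flat.lTensor_preserves_injective_linearMap (M := L') M.d hinj
      exact this
    have hbot : M.H0BC L' = ⊥ := LinearMap.ker_eq_bot.2 hinj'
    let one' : (QC2.unit : QC2 L' (L' ⊗[W] B0) (L' ⊗[W] B1) (L' ⊗[W] B01)).H0 :=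
      ⟨((1 : L' ⊗[W] B0), (1 : L' ⊗[W] B1)), (mem_H0_iff _ _).2 (by
        show algebraMap (L' ⊗[W] B0) (L' ⊗[W] B01) 1 = algebraMap (L' ⊗[W] B1) (L' ⊗[W] B01) 1
        rw [map_one, map_one])⟩
    have hz : (LiftData.h0Equiv h).symm one' = 0 := by
      have hmem := ((LiftData.h0Equiv h).symm one').2
      have hmem' : (((LiftData.h0Equiv h).symm one' : M.H0BC L') : L' ⊗[L] (M.N0 × M.N1)) ∈
          (⊥ : Submodule L' (L' ⊗[L] (M.N0 × M.N1))) := by
        rw [← hbot]
        exact hmem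
      exact Subtype.ext ((Submodule.mem_bot _).1 hmem')
    have hone : one' = 0 := by
      have := congrArg (LiftData.h0Equiv h) hz
      rwa [LinearEquiv.apply_symm_apply, map_zero] at this
    have h10 : (1 : L' ⊗[W] B0) = 0 :=
      congrArg (fun x : (QC2.unit : QC2 L' (L' ⊗[W] B0) (L' ⊗[W] B1) (L' ⊗[W] B01)).H0 =>
        (show L' ⊗[W] B0 from x.1.1)) hone
    exact one_ne_zero h10
  obtain ⟨σ, hσ⟩ := hex
  -- its image over `L'` is a constant
  have hcompat : algebraMap (L' ⊗[W] B0) (L' ⊗[W] B01) (LiftData.toAdd0 h σ.1.1) =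
      algebraMap (L' ⊗[W] B1) (L' ⊗[W] B01) (LiftData.toAdd1 h σ.1.2) := by
    have e0 := LiftData.toAdd01_r0 h σ.1.1
    have e1 := LiftData.toAdd01_r1 h σ.1.2
    rw [H0_compat M σ] at e0
    exact e0.symm.trans e1
  obtain ⟨a, ha0, ha1⟩ := hH0 _ _ hcompat
  have ha : a ≠ 0 := by
    rintro rfl
    rw [map_zero] at ha0 ha1
    apply hσ
    apply Subtype.ext
    apply Prod.ext
    · exact toAdd_eq_zero p0 hp0 h.e0 ha0.symm
    · exact toAdd_eq_zero p1 hp1 h.e1 ha1.symm
  let e0' : (L' ⊗[W] B0) ⊗[L ⊗[W] B0] M.N0 ≃ₗ[L' ⊗[W] B0] (L' ⊗[W] B0) := h.e0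
  let e1' : (L' ⊗[W] B1) ⊗[L ⊗[W] B1] M.N1 ≃ₗ[L' ⊗[W] B1] (L' ⊗[W] B1) := h.e1
  have hu0 : IsUnit (e0' (1 ⊗ₜ[L ⊗[W] B0] σ.1.1)) := by
    have : e0' (1 ⊗ₜ[L ⊗[W] B0] σ.1.1) = algebraMap L' (L' ⊗[W] B0) a := ha0.symm
    rw [this]
    exact (IsUnit.mk0 a ha).map _
  have hu1 : IsUnit (e1' (1 ⊗ₜ[L ⊗[W] B1] σ.1.2)) := by
    have : e1' (1 ⊗ₜ[L ⊗[W] B1] σ.1.2) = algebraMap L' (L' ⊗[W] B1) a := ha1.symm
    rw [this]
    exact (IsUnit.mk0 a ha).map _
  exact nonempty_iso_unit_of_generates M hM σ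
    (exists_smul_eq_of_isUnit p0 hp0 e0' hu0) (exists_smul_eq_of_isUnit p1 hp1 e1' hu1)

/-- **EXT-INJ-FIELD.**  For an extension of fields `L → L'` over `W` with `H⁰(O_{X_{L'}}) = L'`,
`Pic X_L → Pic X_{L'}` is injective. -/
theorem picMap_injective_of_field [Nontrivial (L' ⊗[W] B0)] (hH0 : H0Const (c0.baseChange L')) :
    Function.Injective (PicX.map c0 L L') := by
  rw [injective_iff_map_eq_one]
  intro y hy
  obtain ⟨M, hM, rfl⟩ := LinePic.exists_rep y
  have hy' : LinePic.bc (square_comm W L L' B0 B01) (square_comm W L L' B1 B01)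
      (c0.baseChange L) (c0.baseChange L') (LinePic.mk (c0.baseChange L) M hM) =
      LinePic.mk (c0.baseChange L') QC2.unit isLine_unit := hy
  obtain ⟨h⟩ := LinePic.nonempty_liftData_of_bc_eq (square_comm W L L' B0 B01)
    (square_comm W L L' B1 B01) (c0.baseChange L) (c0.baseChange L') hM isLine_unit hy'
  obtain ⟨e⟩ := nonempty_iso_unit_of_liftData_unit_field c0 L L' hH0 hM h
  rw [LinePic.one_def]
  exact LinePic.mk_eq_mk hM isLine_unit (isoSymm e)

end Field

end Fermat.Agent.T1B.Bridge43
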